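/-
S26 / block ETC (etale criterion), algebraic leaves: STATEMENTS (stubs).  Architect: helper86.
Mathlib only.
-/
import Mathlib

set_option autoImplicit false

namespace Fermat.Agent.S26.Etc.WIP

/-- E1 `Etc/Alg.lean`: a homomorphism of smooth algebras of the same relative dimension which is
unramified at a prime is etale at that prime. -/
theorem isEtaleAt_of_isUnramifiedAt (K S T : Type*) [CommRing K] [CommRing S] [CommRing T]
    [Algebra K S] [Algebra K T] [Algebra S T] [IsScalarTower K S T] (g : ℕ)
    [Algebra.IsStandardSmoothOfRelativeDimension g K S]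
    [Algebra.IsStandardSmoothOfRelativeDimension g K T]
    (q : Ideal T) [q.IsPrime] [Algebra.IsUnramifiedAt S q] : Algebra.IsEtaleAt S q := sorry

end Fermat.Agent.S26.Etc.WIP
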